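/-
S56 / EC-BASE / NF, task NF-1 (sub-architect helper283; proof helper111).
Helper lemmas: this file, names prefixed `NF.AbsS.`.

Abstract `T`-units versus units: `0 → U → E → ℤ[T] → finite`.
Sketch.  `herbrand_four i val hi hval iinj hex hfin hp hP hordE (perm_iterate ..)`, then `cntT_perm_int τ hp P` (`= 1`),
`cntM_perm_int τ p P`.  Instance `AddGroup.FG (T → ℤ)`: `Module.Finite.iff_addGroup_fg.1 inferInstance`
(`Module.Finite ℤ (T → ℤ)` : `Module.Finite.pi`).
-/
import Fermat.Agent.S56.EC.Base.Herb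
import Fermat.Agent.S56.EC.Base.Perm

set_option autoImplicit false

namespace Fermat.Agent.S56.EC.Base

open Polynomial

theorem NF.abs_sunits {E U T : Type*} [AddCommGroup E] [AddCommGroup U] [Finite T] [AddGroup.FG E]
    {gE : E →+ E} {gU : U →+ U} (τ : T → T) (i : U →+ E) (val : E →+ (T → ℤ))
    (hi : ∀ u, i (gU u) = gE (i u)) (hval : ∀ e, val (gE e) = perm τ ℤ (val e))
    (iinj : Function.Injective i) (hex : ∀ e, val e = 0 ↔ ∃ u, i u = e)
    (hfin : Finite ((T → ℤ) ⧸ val.range)) {p m : ℕ} (hp : 0 < p) {P : ℤ[X]}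
    (hP : IsIdemPoly p m P) (hordE : ∀ e, gE^[m] e = e) (hordT : ∀ t, τ^[m] t = t) :
    cntM p P gE * cntT p P gU = cntT p P gE * (cntM p P gU * cnt P (perm τ (ZMod p))) := by
  have : Module.Finite ℤ (T → ℤ) := Module.Finite.pi
  have : AddGroup.FG (T → ℤ) := Module.Finite.iff_addGroup_fg.1 inferInstance
  have h := herbrand_four i val hi hval iinj hex hfin hp hP hordE (fun f => by
    rw [perm_iterate]
    funext t
    exact congrArg f (hordT t))
  rw [cntT_perm_int τ hp P, cntM_perm_int τ p P, mul_one] at h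
  exact h

end Fermat.Agent.S56.EC.Base
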