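/-
S56 / EC-BASE / NF, task NF-2 (sub-architect helper283).  Statement frozen; proved by helper117.
Helper lemmas: this file, names prefixed `NF.Cmp.`.

Translation of `Lat.exists_compare_tors` (language: `ℤ[X]`-modules) into the language of BASE (abelian groups with an
additive operator).
Sketch.  `g := gU.toIntLinearMap : Module.End ℤ U`; `Lat.Pr g` is `U` with `X • u = gU u` (`Lat.Pr.X_smul`, `Lat.Pr.mk`,
everything is `rfl`-transparent: `Lat.Pr g` unfolds to `U`).  `g ^ m = 1`: `LinearMap.ext`, `Module.End.pow_apply`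
(`(g ^ m) u = g^[m] u`), `hordU`.  `Lat.Pr.zKilled`.  `Module.Finite ℤ (Lat.Pr g)`: `Module.Finite.iff_addGroup_fg.2 ‹_›`
(through `inferInstanceAs`/`show Module.Finite ℤ U`).
`τ' : Equiv.Perm W` with `τ'.symm = τ`: `τ' := ⟨τ^[m-1], τ, _, _⟩` (`Function.iterate_succ_apply`, `Function.iterate_succ_apply'`,
`m = (m - 1) + 1`); `τ' ^ m = 1`: `Equiv.ext`; easiest through `(τ'.symm) ^ m = 1` (`Equiv.Perm.iterate_eq_pow`) and `inv_pow`.
Then `f` from `Lat.exists_compare_tors`, `c := f.toAddMonoidHom` (the types `U × ℤ` and `Lat.Pr g × Lat.Pr 1` are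
definitionally equal, as are `W → ℤ` and `Lat.Pr (Lat.permEnd τ' ℤ)`; define `c` by `AddMonoidHom.mk'`/a structure with
`toFun x := f x`).  Equivariance: `f (X • (u, n)) = X • f (u, n)`, `X • (u, n) = (X • u, X • n)` (`Prod.smul_mk`), `Lat.Pr.X_smul`.
Finiteness: the kernels/ranges have the same underlying sets (`Finite.of_equiv`/`Set.Finite`; for the quotient use
`QuotientAddGroup`/`Submodule.Quotient` both being quotients by the same relation: e.g. a surjection
`Lat.Pr _ ⧸ range f → (W → ℤ) ⧸ c.range` built with `Quotient.map'`/`Submodule.liftQ`-free: `Finite.of_surjective`).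
-/
import Fermat.Agent.S56.EC.Base.Defs
import Fermat.Agent.S56.EC.Lat.AbsCmpTors

set_option autoImplicit false

namespace Fermat.Agent.S56.EC.Base

open Polynomial

theorem NF.exists_cmp {U W : Type*} [AddCommGroup U] [AddGroup.FG U] [Fintype W] {gU : U →+ U}
    (τ : W → W) {m : ℕ} (hm : 0 < m) (hordU : ∀ u, gU^[m] u = u) (hordW : ∀ w, τ^[m] w = w)
    (Log : U →+ (W → ℝ)) (hLog : ∀ u w, Log (gU u) w = Log u (τ w))
    (hker : ∀ u, Log u = 0 → ∃ n : ℕ, n ≠ 0 ∧ n • u = 0)
    (hspan : ∀ x : W → ℝ, ∑ w, x w = 0 → x ∈ Submodule.span ℝ (Set.range Log))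
    (hrank : Module.finrank ℤ U + 1 = Fintype.card W) :
    ∃ c : U × ℤ →+ (W → ℤ), (∀ u n, c (gU u, n) = perm τ ℤ (c (u, n))) ∧ Finite c.ker ∧
      Finite ((W → ℤ) ⧸ c.range) := by
  classical
  let g : Module.End ℤ U := gU.toIntLinearMap
  have hg : g ^ m = 1 := by
    refine LinearMap.ext fun u => ?_
    rw [Module.End.pow_apply]
    exact hordU u
  obtain ⟨k, rfl⟩ : ∃ k, m = k + 1 := ⟨m - 1, by omega⟩
  let τ' : Equiv.Perm W :=
    ⟨τ^[k], τ, fun w => by rw [← Function.iterate_succ_apply' τ k w]; exact hordW w,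
      fun w => by rw [← Function.iterate_succ_apply τ k w]; exact hordW w⟩
  have hτ' : τ' ^ (k + 1) = 1 := by
    have h1 : (τ'⁻¹) ^ (k + 1) = 1 := by
      refine Equiv.ext fun w => ?_
      rw [← Equiv.Perm.iterate_eq_pow]
      exact hordW w
    rw [inv_pow, inv_eq_one] at h1
    exact h1
  have hfin : Module.Finite ℤ (Lat.Pr g) :=
    (show Module.Finite ℤ U from Module.Finite.iff_addGroup_fg.2 ‹_›)
  obtain ⟨f, hf1, hf2⟩ := Lat.exists_compare_tors (U := Lat.Pr g) hm (Lat.Pr.zKilled hg) τ' hτ'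
    Log (fun u w => by
      rw [Lat.Pr.X_smul]
      exact hLog u w) hker hspan hrank
  let c : U × ℤ →+ (W → ℤ) :=
    { toFun := fun x => f x
      map_zero' := map_zero f
      map_add' := fun x y => map_add f x y }
  have hc : ∀ x : U × ℤ, c x = f x := fun _ => rfl
  refine ⟨c, ?_, ?_, ?_⟩
  · intro u n
    have h1 := f.map_smul (X : ℤ[X]) ((u, n) : Lat.Pr g × Lat.Pr (1 : Module.End ℤ ℤ))
    rw [Prod.smul_mk, Lat.Pr.X_smul, Lat.Pr.X_smul, Lat.Pr.X_smul] at h1
    exact h1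
  · refine Finite.of_injective
      (fun x : c.ker => (⟨x.1, x.2⟩ : LinearMap.ker f)) ?_
    intro x y h
    exact Subtype.ext (congrArg (fun z : LinearMap.ker f => z.1) h)
  · refine Finite.of_surjective
      (fun q : Lat.Pr (Lat.permEnd τ' ℤ) ⧸ LinearMap.range f =>
        (QuotientAddGroup.mk (Quotient.out q : W → ℤ) : (W → ℤ) ⧸ c.range)) ?_
    intro z
    obtain ⟨y, rfl⟩ := QuotientAddGroup.mk_surjective z
    refine ⟨Submodule.Quotient.mk (Lat.Pr.mk (Lat.permEnd τ' ℤ) y), ?_⟩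
    have h1 : Submodule.Quotient.mk (p := LinearMap.range f) (Quotient.out
        (Submodule.Quotient.mk (p := LinearMap.range f) (Lat.Pr.mk (Lat.permEnd τ' ℤ) y))) =
        Submodule.Quotient.mk (Lat.Pr.mk (Lat.permEnd τ' ℤ) y) := Quotient.out_eq _
    obtain ⟨x, hx⟩ := (Submodule.Quotient.eq _).1 h1.symm
    refine QuotientAddGroup.eq.2 ⟨x, ?_⟩
    rw [hc, hx]
    exact (neg_add_eq_sub _ _).symm

end Fermat.Agent.S56.EC.Base
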