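/-
S56 / EC-BASE / NF, task NF-3 (sub-architect helper283).  (proved, helper211).
Helper lemmas: this file, names prefixed `NF.AbsU.`.

**Abstract equivariant unit theorem, counted mod `p`.**
Sketch.  `c` from `NF.exists_cmp`.  `gUZ := gU.prodMap (AddMonoidHom.id ℤ) : U × ℤ →+ U × ℤ`, `gUZ^[m] = id`
(induction: `gUZ^[k] (u, n) = (gU^[k] u, n)`).  `AddGroup.FG (U × ℤ)`, `AddGroup.FG (W → ℤ)`: via
`Module.Finite.iff_addGroup_fg` (`Module.Finite.prod`, `Module.Finite.pi`).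
(1) `herbrand_four (A₀ := c.ker) c.ker.subtype c (g₀ := Herb.resHom gUZ c.ker _) ..`:
    `cntM gUZ * (cntT g₀ * cntT (perm τ ℤ)) = cntT gUZ * (cntM g₀ * cntM (perm τ ℤ))`;
    `cntM g₀ = cntT g₀` (`cntM_eq_cntT_of_finite`, order by `Herb.resHom_iterate`), `0 < cntT g₀` (`cntT_pos`; a finite group is FG:
    `AddGroup.fg_of_finite`/`inferInstance`), `cntT_perm_int`, `cntM_perm_int`:  `cntM gUZ = cntT gUZ * cnt P (perm τ (ZMod p))`.
(2) `herbrand_mul (AddMonoidHom.inl U ℤ) (AddMonoidHom.snd U ℤ) (g' := gU) (g := gUZ) (g'' := AddMonoidHom.id ℤ) ..`: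
    `cntM gUZ * (cntT gU * cntT id) = cntT gUZ * (cntM gU * cntM id)`, `cntT_id_int`, `cntM_id_int`.
(3) combine and cancel `cntT gUZ > 0` (`cntT_pos`).
-/
import Fermat.Agent.S56.EC.Base.Herb
import Fermat.Agent.S56.EC.Base.Perm
import Fermat.Agent.S56.EC.Base.NF.Cmp

set_option autoImplicit false

namespace Fermat.Agent.S56.EC.Base

open Polynomial

theorem NF.AbsU.iterate_prodMap {U : Type*} [AddCommGroup U] (gU : U →+ U) (k : ℕ) (u : U) (n : ℤ) :
    (gU.prodMap (AddMonoidHom.id ℤ))^[k] (u, n) = (gU^[k] u, n) := by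
  induction k generalizing u with
  | zero => rfl
  | succ k ih =>
    rw [Function.iterate_succ_apply, Function.iterate_succ_apply]
    exact ih (gU u)

theorem NF.abs_units {U W : Type*} [AddCommGroup U] [AddGroup.FG U] [Fintype W] {gU : U →+ U}
    (τ : W → W) {m : ℕ} (hm : 0 < m) (hordU : ∀ u, gU^[m] u = u) (hordW : ∀ w, τ^[m] w = w)
    (Log : U →+ (W → ℝ)) (hLog : ∀ u w, Log (gU u) w = Log u (τ w))
    (hker : ∀ u, Log u = 0 → ∃ n : ℕ, n ≠ 0 ∧ n • u = 0)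
    (hspan : ∀ x : W → ℝ, ∑ w, x w = 0 → x ∈ Submodule.span ℝ (Set.range Log))
    (hrank : Module.finrank ℤ U + 1 = Fintype.card W) {p : ℕ} (hp : 0 < p) {P : ℤ[X]}
    (hP : IsIdemPoly p m P) :
    cntM p P gU * cnt P (AddMonoidHom.id (ZMod p)) = cntT p P gU * cnt P (perm τ (ZMod p)) := by
  obtain ⟨c, hc, hcker, hcfin⟩ := NF.exists_cmp τ hm hordU hordW Log hLog hker hspan hrank
  set gUZ : U × ℤ →+ U × ℤ := gU.prodMap (AddMonoidHom.id ℤ) with hgUZ
  have hordUZ : ∀ a, gUZ^[m] a = a := by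
    rintro ⟨u, n⟩
    rw [hgUZ, NF.AbsU.iterate_prodMap, hordU]
  have hordP : ∀ a, (perm τ ℤ)^[m] a = a := by
    intro a
    rw [perm_iterate]
    funext w
    exact congrArg a (hordW w)
  have hMU : Module.Finite ℤ U := Module.Finite.iff_addGroup_fg.2 inferInstance
  have hFGUZ : AddGroup.FG (U × ℤ) := Module.Finite.iff_addGroup_fg.1 inferInstance
  have hFGW : AddGroup.FG (W → ℤ) := Module.Finite.iff_addGroup_fg.1 inferInstance
  have hcg : ∀ v, c (gUZ v) = perm τ ℤ (c v) := by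
    rintro ⟨u, n⟩
    exact hc u n
  have hS : ∀ a ∈ c.ker, gUZ a ∈ c.ker := by
    intro a ha
    rw [AddMonoidHom.mem_ker] at ha ⊢
    rw [hcg, ha, map_zero]
  have h1 := herbrand_four (A₀ := c.ker) c.ker.subtype c (g₀ := Herb.resHom gUZ c.ker hS)
    (g₁ := gUZ) (g₂ := perm τ ℤ) (fun v => rfl) hcg (AddSubgroup.subtype_injective _)
    (fun v => ⟨fun h => ⟨⟨v, h⟩, rfl⟩, by rintro ⟨w, rfl⟩; exact w.2⟩) hcfin hp hP hordUZ hordP
  have hord0 : ∀ a, (Herb.resHom gUZ c.ker hS)^[m] a = a := by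
    intro a
    apply Subtype.ext
    rw [Herb.resHom_iterate, hordUZ]
  have h0 : cntM p P (Herb.resHom gUZ c.ker hS) = cntT p P (Herb.resHom gUZ c.ker hS) :=
    cntM_eq_cntT_of_finite hp hP hord0
  have h0pos : 0 < cntT p P (Herb.resHom gUZ c.ker hS) := cntT_pos _ hp P
  rw [h0, cntT_perm_int τ hp P, cntM_perm_int τ p P, mul_one] at h1
  have h1' : cntM p P gUZ = cntT p P gUZ * cnt P (perm τ (ZMod p)) := by
    have : cntM p P gUZ * cntT p P (Herb.resHom gUZ c.ker hS) =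
        (cntT p P gUZ * cnt P (perm τ (ZMod p))) * cntT p P (Herb.resHom gUZ c.ker hS) := by
      rw [h1]; ring
    exact Nat.eq_of_mul_eq_mul_right h0pos this
  have h2 := herbrand_mul (AddMonoidHom.inl U ℤ) (AddMonoidHom.snd U ℤ) (g' := gU) (g := gUZ)
    (g'' := AddMonoidHom.id ℤ) (fun v => by simp [hgUZ]) (fun v => rfl)
    (fun a b h => by simpa using h) (fun n => ⟨(0, n), rfl⟩)
    (fun v => ⟨fun h => ⟨v.1, Prod.ext rfl h.symm⟩, by rintro ⟨w, rfl⟩; rfl⟩) hp hP hordUZ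
  rw [cntT_id_int hp P, cntM_id_int p P, mul_one, h1'] at h2
  have hpos : 0 < cntT p P gUZ := cntT_pos _ hp P
  have h3 : cntT p P gUZ * (cntM p P gU * cnt P (AddMonoidHom.id (ZMod p))) =
      cntT p P gUZ * (cntT p P gU * cnt P (perm τ (ZMod p))) := by
    rw [← h2]; ring
  exact Nat.eq_of_mul_eq_mul_left hpos h3

end Fermat.Agent.S56.EC.Base
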