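/-
S56 / EC-BASE / NF, task NF-8 (sub-architect helper283).
Helper lemmas: this file, names prefixed `NF.FG.`.

Finite generation.
-/
import Mathlib

set_option autoImplicit false

namespace Fermat.Agent.S56.EC.Base

open NumberField

theorem NF.fg_units (K : Type*) [Field K] [NumberField K] : AddGroup.FG (Additive (𝓞 K)ˣ) := by
  rw [← Module.Finite.iff_addGroup_fg]
  infer_instance

theorem NF.fg_of_exact {U E T : Type*} [AddCommGroup U] [AddCommGroup E] [Finite T]
    [AddGroup.FG U] (i : U →+ E) (val : E →+ (T → ℤ)) (hex : ∀ e, val e = 0 ↔ ∃ u, i u = e) :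
    AddGroup.FG E := by
  rw [← Module.Finite.iff_addGroup_fg]
  have hU : Module.Finite ℤ U := Module.Finite.iff_addGroup_fg.2 inferInstance
  let f : E →ₗ[ℤ] (T → ℤ) := val.toIntLinearMap
  have hker : Module.Finite ℤ (LinearMap.ker f) := by
    let g : U →ₗ[ℤ] LinearMap.ker f :=
      i.toIntLinearMap.codRestrict (LinearMap.ker f) (fun u => (hex (i u)).2 ⟨u, rfl⟩)
    refine Module.Finite.of_surjective g ?_
    rintro ⟨e, he⟩
    obtain ⟨u, hu⟩ := (hex e).1 he
    exact ⟨u, Subtype.ext hu⟩
  have hquot : Module.Finite ℤ (E ⧸ LinearMap.ker f) :=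
    Module.Finite.equiv f.quotKerEquivRange.symm
  exact Module.Finite.of_submodule_quotient (LinearMap.ker f)

end Fermat.Agent.S56.EC.Base
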