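/-
S56 / block EC / BASE CASE / number field side (sub-architect helper283).  DEFINITIONS (frozen) + basic API.

`K` a number field, `σ : K ≃+* K`.
* `NF.sigO σ`  : the operator induced by `σ` on `Additive (𝓞 K)ˣ`;
* `NF.incO`    : `Additive (𝓞 K)ˣ →+ Additive Kˣ`;
* `NF.valK pl` : `Additive Kˣ →+ (T → ℤ)`, the exponents of the valuations at the places `pl t`
                 (`(pl t).valuation K x = exp (valK pl x t)`, so this is MINUS the order);
* `NF.logK`    : `Additive Kˣ →+ (InfinitePlace K → ℝ)`, `x ↦ (w ↦ mult w * log (w x))`.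
-/
import Fermat.Agent.S56.EC.Base.NFDefs

set_option autoImplicit false

namespace Fermat.Agent.S56.EC.Base

open Polynomial NumberField IsDedekindDomain

variable {K : Type*} [Field K] [NumberField K]

/-- The operator induced by `σ` on the units of `𝓞 K`. -/
noncomputable def NF.sigO (σ : K ≃+* K) : Additive (𝓞 K)ˣ →+ Additive (𝓞 K)ˣ :=
  MonoidHom.toAdditive (Units.map ((RingOfIntegers.mapRingEquiv σ : 𝓞 K ≃+* 𝓞 K) : 𝓞 K →* 𝓞 K))

theorem NF.coe_sigO (σ : K ≃+* K) (u : Additive (𝓞 K)ˣ) :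
    ((((NF.sigO σ u).toMul : (𝓞 K)ˣ) : 𝓞 K) : K) = σ (((u.toMul : (𝓞 K)ˣ) : 𝓞 K) : K) := rfl

/-- The units of `𝓞 K` inside `Kˣ`. -/
noncomputable def NF.incO : Additive (𝓞 K)ˣ →+ Additive Kˣ :=
  MonoidHom.toAdditive (Units.map (algebraMap (𝓞 K) K : 𝓞 K →* K))

theorem NF.coe_incO (u : Additive (𝓞 K)ˣ) :
    (((NF.incO u).toMul : Kˣ) : K) = (((u.toMul : (𝓞 K)ˣ) : 𝓞 K) : K) := rfl

theorem NF.incO_injective : Function.Injective (NF.incO (K := K)) := by
  intro u u' h
  have h1 : (((u.toMul : (𝓞 K)ˣ) : 𝓞 K) : K) = (((u'.toMul : (𝓞 K)ˣ) : 𝓞 K) : K) := by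
    rw [← NF.coe_incO, ← NF.coe_incO, h]
  exact Additive.toMul.injective (Units.ext (RingOfIntegers.ext h1))

theorem NF.incO_sigO (σ : K ≃+* K) (u : Additive (𝓞 K)ˣ) :
    NF.incO (NF.sigO σ u) = sigK σ (NF.incO u) := by
  apply Additive.toMul.injective
  apply Units.ext
  rfl

/-- The exponents of the valuations at the places `pl t`. -/
noncomputable def NF.valK {T : Type*} (pl : T → HeightOneSpectrum (𝓞 K)) :
    Additive Kˣ →+ (T → ℤ) where
  toFun x t := Multiplicative.toAdd ((pl t).valuationOfNeZero x.toMul)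
  map_zero' := by
    funext t
    simp
  map_add' x y := by
    funext t
    simp

theorem NF.valK_apply {T : Type*} (pl : T → HeightOneSpectrum (𝓞 K)) (x : Additive Kˣ) (t : T) :
    NF.valK pl x t = Multiplicative.toAdd ((pl t).valuationOfNeZero x.toMul) := rfl

/-- `(pl t).valuation K x = exp (valK pl x t)`. -/
theorem NF.valuation_eq_exp {T : Type*} (pl : T → HeightOneSpectrum (𝓞 K)) (x : Additive Kˣ)
    (t : T) : (pl t).valuation K (x.toMul : K) = WithZero.exp (NF.valK pl x t) := by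
  rw [← HeightOneSpectrum.valuationOfNeZero_eq]
  rfl

/-- The logarithms of the absolute values at the infinite places. -/
noncomputable def NF.logK : Additive Kˣ →+ (InfinitePlace K → ℝ) where
  toFun x w := (w.mult : ℝ) * Real.log (w (x.toMul : K))
  map_zero' := by
    funext w
    simp
  map_add' x y := by
    funext w
    have hx : w ((x.toMul : Kˣ) : K) ≠ 0 := (map_ne_zero w).2 x.toMul.ne_zero
    have hy : w ((y.toMul : Kˣ) : K) ≠ 0 := (map_ne_zero w).2 y.toMul.ne_zero
    simp only [toMul_add, Units.val_mul, map_mul, Pi.add_apply]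
    rw [Real.log_mul hx hy, mul_add]

theorem NF.logK_apply (x : Additive Kˣ) (w : InfinitePlace K) :
    NF.logK x w = (w.mult : ℝ) * Real.log (w (x.toMul : K)) := rfl

end Fermat.Agent.S56.EC.Base
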