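/-
S56 / EC-BASE / NF, task NF-9 (sub-architect helper283).  (proved by helper198, task 3097.)
Helper lemmas: this file, names prefixed `NF.Log.`.

The logarithm vector: equivariance, kernel on the units.
Sketch.  `mult_tauInf`: `InfinitePlace.mult` is defined by `if w.IsReal then 1 else 2`; `InfinitePlace.isReal_comap_iff (f : k ≃+* K)`
(`tauInf σ w = w.comap (σ : K →+* K)` by definition).
`logK_sigK`: `NF.logK_apply`, `coe_toMul_sigK`, `tauInf_apply`, `mult_tauInf`.
`logK_incO_eq_zero`: for every `w`: `mult w * log (w u) = 0`, `mult w ≠ 0` (`InfinitePlace.mult_pos`/`mult_ne_zero`), `w u > 0`, so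
`w u = 1` (`Real.eq_one_of_pos_of_log_eq_zero`); `NumberField.Units.mem_torsion : x ∈ torsion K ↔ ∀ w, w x = 1`; the torsion
subgroup is finite: `n := NumberField.Units.torsionOrder K` (`rootsOfUnity`/`pow_card_eq_one'`, or `CommGroup.mem_torsion`,
`isOfFinOrder_iff_pow_eq_one` gives directly `∃ n, 0 < n ∧ x ^ n = 1`).
-/
import Fermat.Agent.S56.EC.Base.NF.Defs

set_option autoImplicit false

namespace Fermat.Agent.S56.EC.Base

open Polynomial NumberField IsDedekindDomain

variable {K : Type*} [Field K] [NumberField K]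

theorem NF.mult_tauInf (σ : K ≃+* K) (w : InfinitePlace K) : (tauInf σ w).mult = w.mult := by
  have h : (tauInf σ w).IsReal ↔ w.IsReal := InfinitePlace.isReal_comap_iff σ
  unfold InfinitePlace.mult
  by_cases hw : w.IsReal
  · rw [if_pos hw, if_pos (h.2 hw)]
  · rw [if_neg hw, if_neg (fun h' => hw (h.1 h'))]

theorem NF.logK_sigK (σ : K ≃+* K) (x : Additive Kˣ) (w : InfinitePlace K) :
    NF.logK (sigK σ x) w = NF.logK x (tauInf σ w) := by
  rw [NF.logK_apply, NF.logK_apply, coe_toMul_sigK, tauInf_apply, NF.mult_tauInf]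

theorem NF.logK_incO_eq_zero (u : Additive (𝓞 K)ˣ) (h : NF.logK (NF.incO u) = 0) :
    ∃ n : ℕ, n ≠ 0 ∧ n • u = 0 := by
  have h1 : ∀ w : InfinitePlace K, w (((u.toMul : (𝓞 K)ˣ) : 𝓞 K) : K) = 1 := by
    intro w
    have h2 : NF.logK (NF.incO u) w = 0 := by rw [h]; rfl
    rw [NF.logK_apply, NF.coe_incO] at h2
    have h3 := (mul_eq_zero.1 h2).resolve_left InfinitePlace.mult_coe_ne_zero
    have hne : (((u.toMul : (𝓞 K)ˣ) : 𝓞 K) : K) ≠ 0 := by
      rw [← NF.coe_incO]
      exact (NF.incO u).toMul.ne_zero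
    have hpos : 0 < w (((u.toMul : (𝓞 K)ˣ) : 𝓞 K) : K) :=
      lt_of_le_of_ne (apply_nonneg w _) (Ne.symm ((map_ne_zero w).2 hne))
    exact Real.eq_one_of_pos_of_log_eq_zero hpos h3
  have h4 : (u.toMul : (𝓞 K)ˣ) ∈ NumberField.Units.torsion K :=
    (NumberField.Units.mem_torsion K).2 h1
  rw [NumberField.Units.torsion, CommGroup.mem_torsion, isOfFinOrder_iff_pow_eq_one] at h4
  obtain ⟨n, hn, hx⟩ := h4
  exact ⟨n, hn.ne', Additive.toMul.injective hx⟩

end Fermat.Agent.S56.EC.Base
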