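/-
S56 / EC-BASE / NF, task NF-10 (sub-architect helper283).  Owner helper186.
Helper lemmas: this file, names prefixed `NF.LogSpan.`.

Dirichlet: the logarithms of the units span the hyperplane `∑ x_w = 0`.
Sketch.  Mathlib (`Mathlib/NumberTheory/NumberField/Units/DirichletTheorem.lean`, namespace `NumberField.Units`,
`open dirichletUnitTheorem`): `w₀ : InfinitePlace K`, `logSpace K = ({w // w ≠ w₀} → ℝ)`,
`logEmbedding K : Additive (𝓞 K)ˣ →+ logSpace K`, `logEmbedding_component : logEmbedding K x w = mult w.1 * log (w.1 x)`,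
`unitLattice K = range of logEmbedding` (as a `ℤ`-submodule), `unitLattice_span_eq_top : span ℝ (unitLattice K : Set _) = ⊤`,
`sum_mult_mul_log (x : (𝓞 K)ˣ) : ∑ w, mult w * log (w x) = 0`.
Let `r : (InfinitePlace K → ℝ) →ₗ[ℝ] logSpace K` be the restriction (`LinearMap.funLeft ℝ ℝ Subtype.val`), `S := span ℝ (range L)`, `L := logK ∘ incO`.
(a) `r (L u) = logEmbedding K u`, so `S.map r = span ℝ (unitLattice K) = ⊤` (`Submodule.map_span`, `Set.range_comp`).
(b) every `y ∈ S` has `∑ w, y w = 0` (`Submodule.span_induction`, `sum_mult_mul_log`).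
(c) given `x` with sum `0`: by (a) there is `y ∈ S` with `r y = r x`; `x - y` has sum `0` and vanishes at all `w ≠ w₀`, so it
    vanishes at `w₀` too (`Finset.sum_eq_single w₀`), `x = y ∈ S`.
-/
import Fermat.Agent.S56.EC.Base.NF.Defs

set_option autoImplicit false

namespace Fermat.Agent.S56.EC.Base

open Polynomial NumberField IsDedekindDomain

variable {K : Type*} [Field K] [NumberField K]

open NumberField.Units NumberField.Units.dirichletUnitTheorem in
theorem NF.LogSpan.restrict_apply (u : Additive (𝓞 K)ˣ) :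
    LinearMap.funLeft ℝ ℝ (Subtype.val : {w : InfinitePlace K // w ≠ w₀} → InfinitePlace K)
      (((NF.logK (K := K)).comp NF.incO) u) = logEmbedding K u := rfl

theorem NF.LogSpan.sum_eq_zero (y : InfinitePlace K → ℝ)
    (hy : y ∈ Submodule.span ℝ (Set.range ((NF.logK (K := K)).comp NF.incO))) :
    ∑ w, y w = 0 := by
  induction hy using Submodule.span_induction with
  | mem y hy =>
    obtain ⟨u, rfl⟩ := hy
    exact NumberField.Units.sum_mult_mul_log u.toMul
  | zero => simp
  | add y z _ _ hy hz => simp [Finset.sum_add_distrib, hy, hz]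
  | smul a y _ hy => simp [← Finset.mul_sum, hy]

open NumberField.Units NumberField.Units.dirichletUnitTheorem in
theorem NF.logK_span (x : InfinitePlace K → ℝ) (hx : ∑ w, x w = 0) :
    x ∈ Submodule.span ℝ (Set.range ((NF.logK (K := K)).comp NF.incO)) := by
  classical
  set S := Submodule.span ℝ (Set.range ((NF.logK (K := K)).comp NF.incO)) with hS
  set r := LinearMap.funLeft ℝ ℝ
    (Subtype.val : {w : InfinitePlace K // w ≠ w₀} → InfinitePlace K) with hr
  have hmap : S.map r = ⊤ := by
    rw [hS, Submodule.map_span, ← unitLattice_span_eq_top K]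
    congr 1
    ext z
    constructor
    · rintro ⟨_, ⟨u, rfl⟩, rfl⟩
      exact ⟨u, trivial, rfl⟩
    · rintro ⟨u, -, rfl⟩
      exact ⟨_, ⟨u, rfl⟩, rfl⟩
  have hrx : r x ∈ S.map r := by rw [hmap]; trivial
  obtain ⟨y, hy, hyx⟩ := hrx
  have hsum : ∑ w, (x - y) w = 0 := by
    simp only [Pi.sub_apply, Finset.sum_sub_distrib, hx, NF.LogSpan.sum_eq_zero y hy, sub_self]
  have hne : ∀ w : InfinitePlace K, w ≠ w₀ → (x - y) w = 0 := by
    intro w hw
    have := congrFun hyx ⟨w, hw⟩
    simp only [hr, LinearMap.funLeft_apply] at this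
    rw [Pi.sub_apply, this, sub_self]
  have h0 : (x - y) w₀ = 0 := by
    rw [Finset.sum_eq_single w₀ (fun w _ hw => hne w hw) (fun h => absurd (Finset.mem_univ _) h)]
      at hsum
    exact hsum
  have hxy : x = y := by
    funext w
    by_cases hw : w = w₀
    · rw [hw]
      exact sub_eq_zero.1 h0
    · exact sub_eq_zero.1 (hne w hw)
  rw [hxy]
  exact hy

theorem NF.finrank_units (K : Type*) [Field K] [NumberField K] :
    Module.finrank ℤ (Additive (𝓞 K)ˣ) + 1 = Fintype.card (InfinitePlace K) := by
  rw [NumberField.Units.finrank_eq, NumberField.Units.rank]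
  have : 0 < Fintype.card (InfinitePlace K) := Fintype.card_pos
  omega

end Fermat.Agent.S56.EC.Base
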