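/-
S56 / EC-BASE / NF, task NF-6 (sub-architect helper283).  Statements FROZEN.
Helper lemmas: this file, names prefixed `NF.QuotFin.`.

A subgroup of `ℤ^T` which contains a non-zero multiple of every basis vector has finite index.
Sketch.  `N := ∏ t, h t ≠ 0` (after `choose`, `Fintype.ofFinite`/`Finite.nonempty_fintype`); `N • f ∈ H` for all `f`
(`f = ∑ t, f t • Pi.single t 1`, `N • Pi.single t 1 = (N / h t) • Pi.single t (h t)`), so the quotient is a finitely generated
`ℤ`-module (`Module.Finite.quotient`; use `H.toIntSubmodule`, `(T → ℤ) ⧸ H.toIntSubmodule` has the same carrier) which is torsion: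
`Module.finite_of_fg_torsion`.  Alternative: the map `(T → ZMod N.natAbs) → (T → ℤ) ⧸ H` is onto.
-/
import Mathlib

set_option autoImplicit false

namespace Fermat.Agent.S56.EC.Base

theorem NF.finite_quot_of_single {T : Type*} [Finite T] [DecidableEq T] (H : AddSubgroup (T → ℤ))
    (hH : ∀ t : T, ∃ h : ℤ, h ≠ 0 ∧ Pi.single t h ∈ H) : Finite ((T → ℤ) ⧸ H) := by
  classical
  obtain ⟨_⟩ := nonempty_fintype T
  choose h h0 hmem using hH
  set N : ℤ := ∏ t, h t with hN
  have hN0 : N ≠ 0 := Finset.prod_ne_zero_iff.mpr fun t _ => h0 t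
  have key : ∀ f : T → ℤ, N • f ∈ H := by
    intro f
    have hf : N • f = ∑ t, Pi.single t (N * f t) := by
      rw [Finset.univ_sum_single]
      rfl
    rw [hf]
    refine H.sum_mem fun t _ => ?_
    obtain ⟨c, hc⟩ : h t ∣ N := Finset.dvd_prod_of_mem h (Finset.mem_univ t)
    have h1 : (Pi.single t (N * f t) : T → ℤ) = (c * f t) • Pi.single t (h t) := by
      funext s
      by_cases hs : s = t
      · subst hs
        simp only [Pi.single_eq_same, Pi.smul_apply, smul_eq_mul]
        rw [hc]
        ring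
      · simp [Pi.single_eq_of_ne hs]
    rw [h1]
    exact H.zsmul_mem (hmem t) _
  have hfin : Module.Finite ℤ ((T → ℤ) ⧸ H) :=
    Module.Finite.of_surjective (QuotientAddGroup.mk' H).toIntLinearMap
      (QuotientAddGroup.mk'_surjective H)
  refine Module.finite_of_fg_torsion _ ?_
  intro x
  obtain ⟨f, rfl⟩ := QuotientAddGroup.mk_surjective x
  refine ⟨⟨N, mem_nonZeroDivisors_of_ne_zero hN0⟩, ?_⟩
  show N • (QuotientAddGroup.mk f : (T → ℤ) ⧸ H) = 0
  rw [← QuotientAddGroup.mk_zsmul]
  exact (QuotientAddGroup.eq_zero_iff _).mpr (key f)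

end Fermat.Agent.S56.EC.Base
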