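/-
S56 / EC-BASE / NF, task NF-5 (sub-architect helper283).  STUB: statements FROZEN, replace every sorry.
Helper lemmas: this file, names prefixed `NF.Single.`.

Finiteness of the class number: a power of every prime of `T` is generated by a `T`-unit.
Sketch.  `S55.NIT.FI.exists_generator_pow K (pl t)` gives `c : Kˣ`, `h > 0` with `(pl t).valuation K c = exp (-h)` and
`v.valuation K c = 1` for `v ≠ pl t` (READ its exact statement in `S55/NIT/FI/PrimePow.lean`; the model proof is
`S55.NIT.FI.sUnitVal_exists_single` in `S55/NIT/FI/SUnit.lean`).  `(hE.range c).2 _` gives `e` with `ι e = ofMul c`.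
`valK pl (ι e) t' = if t' = t then -h else 0`: `NF.valuation_eq_exp`, `WithZero.exp_injective`, `hpl.ne`.
-/
import Fermat.Agent.S56.EC.Base.NF.Defs
import Fermat.Agent.S55.NIT.FI.PrimePow

set_option autoImplicit false

namespace Fermat.Agent.S56.EC.Base

open Polynomial NumberField IsDedekindDomain

variable {K : Type*} [Field K] [NumberField K] {T : Type*}

theorem NF.exists_single [DecidableEq T] {σ : K ≃+* K} {pl : T → HeightOneSpectrum (𝓞 K)}
    (hpl : Function.Injective pl) {E : Type*} [AddCommGroup E] {gE : E →+ E}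
    {ι : E →+ Additive Kˣ} (hE : IsUnitModel σ pl gE ι) (t : T) :
    ∃ (e : E) (h : ℤ), h ≠ 0 ∧ NF.valK pl (ι e) = Pi.single t h := by
  obtain ⟨c, h, hh, hc, hc'⟩ := Fermat.Agent.S55.NIT.FI.exists_generator_pow K (pl t)
  obtain ⟨e, he⟩ := (hE.range c).2 fun v hv => hc' v fun hvt => hv t hvt.symm
  refine ⟨e, -(h : ℤ), by omega, ?_⟩
  funext j
  have hval := NF.valuation_eq_exp pl (ι e) j
  rw [he, toMul_ofMul] at hval
  by_cases hj : j = t
  · subst hj
    rw [Pi.single_eq_same]
    rw [hc] at hval
    rw [he]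
    exact (WithZero.exp_injective hval).symm
  · rw [Pi.single_eq_of_ne hj]
    rw [hc' (pl j) (fun h => hj (hpl h)), ← WithZero.exp_zero] at hval
    rw [he]
    exact (WithZero.exp_injective hval).symm

end Fermat.Agent.S56.EC.Base
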