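/-
S56 / EC-BASE / NF, task NF-7 (sub-architect helper283).  Statements FROZEN.
Helper lemmas: this file, names prefixed `NF.UnitsIn.`.

The units of `𝓞 K` inside a model `E` of the `T`-units: `0 → (𝓞 K)ˣ → E → ℤ^T`.
Sketch.  `exists_incE`: for `u`, `(hE.range (NF.incO u).toMul).2 (fun v _ => _)` where all valuations of a unit are `1`
(`HeightOneSpectrum.valuation_of_unit_eq` + `HeightOneSpectrum.valuationOfNeZero_eq`, see `S55.NIT.FI.unitsToSUnit`);
`choose`; additivity by `hE.inj` (`AddMonoidHom.mk'`).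
`incE_injective`: `NF.incO_injective`.  `incE_sigO`: `hE.inj`, `hE.equiv`, `NF.incO_sigO`.
`incE_exact`: (⇐) valuations of units are `1` and `NF.valK_eq_zero_iff`; (⇒) all valuations of `x := (ι e).toMul` are `1`
(at `v = pl t` by `NF.valK_eq_zero_iff`, at the other `v` by `(hE.range x).1 ⟨e, rfl⟩`; `by_cases h : ∃ t, pl t = v`), then
`S55.NIT.FI.exists_unit_of_valuation_eq_one K x _` gives `u`, and `i (ofMul u) = e` by `hE.inj` (`Units.ext`).
-/
import Fermat.Agent.S56.EC.Base.NF.Val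
import Fermat.Agent.S55.NIT.FI.UnitOfVal

set_option autoImplicit false

namespace Fermat.Agent.S56.EC.Base

open Polynomial NumberField IsDedekindDomain

variable {K : Type*} [Field K] [NumberField K] {T : Type*} {σ : K ≃+* K}
  {pl : T → HeightOneSpectrum (𝓞 K)} {E : Type*} [AddCommGroup E] {gE : E →+ E}
  {ι : E →+ Additive Kˣ}

/-- all finite valuations of a unit of `𝓞 K` are `1` -/
theorem NF.UnitsIn.valuation_incO (v : HeightOneSpectrum (𝓞 K)) (u : Additive (𝓞 K)ˣ) :
    v.valuation K (((NF.incO u).toMul : Kˣ) : K) = 1 := by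
  rw [← HeightOneSpectrum.valuationOfNeZero_eq]
  have h : v.valuationOfNeZero (Units.map (algebraMap (𝓞 K) K : 𝓞 K →* K) u.toMul) = 1 :=
    HeightOneSpectrum.valuation_of_unit_eq _ _
  have h' : v.valuationOfNeZero ((NF.incO u).toMul : Kˣ) = 1 := h
  rw [h']
  rfl

theorem NF.exists_incE (hE : IsUnitModel σ pl gE ι) :
    ∃ i : Additive (𝓞 K)ˣ →+ E, ∀ u, ι (i u) = NF.incO u := by
  have hex : ∀ u : Additive (𝓞 K)ˣ, ∃ e, ι e = NF.incO u := fun u =>
    (hE.range (NF.incO u).toMul).2 fun v _ => NF.UnitsIn.valuation_incO v u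
  choose f hf using hex
  refine ⟨AddMonoidHom.mk' f fun u u' => hE.inj ?_, hf⟩
  rw [map_add, hf, hf, hf, map_add]

theorem NF.incE_injective {i : Additive (𝓞 K)ˣ →+ E} (hi : ∀ u, ι (i u) = NF.incO u) :
    Function.Injective i := by
  intro u u' h
  apply NF.incO_injective
  rw [← hi, ← hi, h]

theorem NF.incE_sigO (hE : IsUnitModel σ pl gE ι) {i : Additive (𝓞 K)ˣ →+ E}
    (hi : ∀ u, ι (i u) = NF.incO u) (u : Additive (𝓞 K)ˣ) : i (NF.sigO σ u) = gE (i u) := by
  apply hE.inj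
  rw [hi, hE.equiv, hi, NF.incO_sigO]

theorem NF.incE_exact (hE : IsUnitModel σ pl gE ι) {i : Additive (𝓞 K)ˣ →+ E}
    (hi : ∀ u, ι (i u) = NF.incO u) (e : E) : NF.valK pl (ι e) = 0 ↔ ∃ u, i u = e := by
  constructor
  · intro h
    rw [NF.valK_eq_zero_iff] at h
    have hall : ∀ v : HeightOneSpectrum (𝓞 K), v.valuation K (((ι e).toMul : Kˣ) : K) = 1 := by
      intro v
      by_cases hv : ∃ t, pl t = v
      · obtain ⟨t, rfl⟩ := hv
        exact h t
      · exact (hE.range (ι e).toMul).1 ⟨e, rfl⟩ v fun t ht => hv ⟨t, ht⟩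
    obtain ⟨u, hu⟩ := Fermat.Agent.S55.NIT.FI.exists_unit_of_valuation_eq_one K (ι e).toMul hall
    refine ⟨Additive.ofMul u, hE.inj ?_⟩
    rw [hi]
    apply Additive.toMul.injective
    apply Units.ext
    exact hu
  · rintro ⟨u, rfl⟩
    rw [NF.valK_eq_zero_iff, hi]
    exact fun t => NF.UnitsIn.valuation_incO (pl t) u

end Fermat.Agent.S56.EC.Base
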