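/-
S56 / EC-BASE / NF, task NF-4 (sub-architect helper283).
The valuation vector: equivariance, kernel.
-/
import Fermat.Agent.S56.EC.Base.NF.Defs

set_option autoImplicit false

namespace Fermat.Agent.S56.EC.Base

open Polynomial NumberField IsDedekindDomain

variable {K : Type*} [Field K] [NumberField K] {T : Type*}

theorem NF.valK_sigK (σ : K ≃+* K) (pl : T → HeightOneSpectrum (𝓞 K)) (τ : T → T)
    (hτ : ∀ t x, (pl (τ t)).valuation K x = (pl t).valuation K (σ x)) (x : Additive Kˣ) :
    NF.valK pl (sigK σ x) = perm τ ℤ (NF.valK pl x) := by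
  funext t
  apply WithZero.exp_injective
  rw [← NF.valuation_eq_exp, perm_apply, ← NF.valuation_eq_exp, hτ, coe_toMul_sigK]

theorem NF.valK_eq_zero_iff (pl : T → HeightOneSpectrum (𝓞 K)) (x : Additive Kˣ) :
    NF.valK pl x = 0 ↔ ∀ t, (pl t).valuation K (x.toMul : K) = 1 := by
  constructor
  · intro h t
    rw [NF.valuation_eq_exp, h]
    rfl
  · intro h
    funext t
    apply WithZero.exp_injective
    rw [← NF.valuation_eq_exp, h t]
    rfl

end Fermat.Agent.S56.EC.Base
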