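/-
S56 / EC-BASE / NF, task NF-11 (sub-architect helper283).
Helper lemmas: this file, names prefixed `NF.Ord.`.

All the operators have order dividing `m`.
Sketch.  By induction on `k` (`Function.iterate_succ_apply'`):
`(((sigK σ)^[k] x).toMul : K) = σ^[k] x.toMul`, the same for `sigO`, `(tauInf σ)^[k] w x = w (σ^[k] x)` (here use
`Function.iterate_succ_apply` / commute: `σ^[k] (σ x) = σ (σ^[k] x)`, `Function.Commute.iterate_right`/`Function.iterate_succ_apply'`),
`(pl (τ^[k] t)).valuation K x = (pl t).valuation K (σ^[k] x)`, `ι (gE^[k] e) = (sigK σ)^[k] (ι e)`.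
Extensionality: `Units.ext`, `RingOfIntegers.ext`, `InfinitePlace.ext` (`∀ x, w x = w' x`), `hE.inj`, `hpl`, and
`eq_of_valuation_eq`: `r ∈ v.asIdeal ↔ v.valuation K (algebraMap _ K r) < 1` (`HeightOneSpectrum.valuation_lt_one_iff_mem`),
`HeightOneSpectrum.ext`, `Ideal.ext`.
-/
import Fermat.Agent.S56.EC.Base.NF.Defs

set_option autoImplicit false

namespace Fermat.Agent.S56.EC.Base

open Polynomial NumberField IsDedekindDomain

variable {K : Type*} [Field K] [NumberField K] {σ : K ≃+* K} {m : ℕ}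

theorem NF.eq_of_valuation_eq {v v' : HeightOneSpectrum (𝓞 K)}
    (h : ∀ x : K, v.valuation K x = v'.valuation K x) : v = v' := by
  apply HeightOneSpectrum.ext
  apply Ideal.ext
  intro r
  rw [← HeightOneSpectrum.valuation_lt_one_iff_mem (K := K), ← HeightOneSpectrum.valuation_lt_one_iff_mem (K := K), h]

theorem NF.Ord.coe_sigK_iterate (σ : K ≃+* K) (k : ℕ) (x : Additive Kˣ) :
    ((((sigK σ)^[k] x).toMul : Kˣ) : K) = σ^[k] ((x.toMul : Kˣ) : K) := by
  induction k with
  | zero => rfl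
  | succ k ih =>
    rw [Function.iterate_succ_apply', Function.iterate_succ_apply', coe_toMul_sigK, ih]

theorem NF.Ord.coe_sigO_iterate (σ : K ≃+* K) (k : ℕ) (u : Additive (𝓞 K)ˣ) :
    (((((NF.sigO σ)^[k] u).toMul : (𝓞 K)ˣ) : 𝓞 K) : K) =
      σ^[k] (((u.toMul : (𝓞 K)ˣ) : 𝓞 K) : K) := by
  induction k with
  | zero => rfl
  | succ k ih =>
    rw [Function.iterate_succ_apply', Function.iterate_succ_apply', NF.coe_sigO, ih]

theorem NF.Ord.tauInf_iterate_apply (σ : K ≃+* K) (k : ℕ) (w : InfinitePlace K) (x : K) :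
    (tauInf σ)^[k] w x = w (σ^[k] x) := by
  induction k generalizing x with
  | zero => rfl
  | succ k ih =>
    rw [Function.iterate_succ_apply', tauInf_apply, ih, Function.iterate_succ_apply]

theorem NF.Ord.tau_iterate_valuation (σ : K ≃+* K) {T : Type*}
    {pl : T → HeightOneSpectrum (𝓞 K)} {τ : T → T}
    (hτ : ∀ t x, (pl (τ t)).valuation K x = (pl t).valuation K (σ x)) (k : ℕ) (t : T) (x : K) :
    (pl (τ^[k] t)).valuation K x = (pl t).valuation K (σ^[k] x) := by
  induction k generalizing x with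
  | zero => rfl
  | succ k ih =>
    rw [Function.iterate_succ_apply', hτ, ih, Function.iterate_succ_apply]

theorem NF.sigO_iterate (hσ : ∀ x, σ^[m] x = x) (u : Additive (𝓞 K)ˣ) : (NF.sigO σ)^[m] u = u := by
  apply Additive.toMul.injective
  apply Units.ext
  apply RingOfIntegers.ext
  rw [NF.Ord.coe_sigO_iterate, hσ]

theorem NF.tauInf_iterate (hσ : ∀ x, σ^[m] x = x) (w : InfinitePlace K) : (tauInf σ)^[m] w = w := by
  apply InfinitePlace.ext
  intro x
  rw [NF.Ord.tauInf_iterate_apply, hσ]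

theorem NF.tau_iterate (hσ : ∀ x, σ^[m] x = x) {T : Type*} {pl : T → HeightOneSpectrum (𝓞 K)}
    (hpl : Function.Injective pl) {τ : T → T}
    (hτ : ∀ t x, (pl (τ t)).valuation K x = (pl t).valuation K (σ x)) (t : T) : τ^[m] t = t := by
  apply hpl
  apply NF.eq_of_valuation_eq
  intro x
  rw [NF.Ord.tau_iterate_valuation σ hτ, hσ]

theorem NF.gE_iterate (hσ : ∀ x, σ^[m] x = x) {T : Type*} {pl : T → HeightOneSpectrum (𝓞 K)}
    {E : Type*} [AddCommGroup E] {gE : E →+ E} {ι : E →+ Additive Kˣ}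
    (hE : IsUnitModel σ pl gE ι) (e : E) : gE^[m] e = e := by
  have hι : ∀ k : ℕ, ι (gE^[k] e) = (sigK σ)^[k] (ι e) := by
    intro k
    induction k with
    | zero => rfl
    | succ k ih =>
      rw [Function.iterate_succ_apply', Function.iterate_succ_apply', hE.equiv, ih]
  apply hE.inj
  rw [hι]
  apply Additive.toMul.injective
  apply Units.ext
  rw [NF.Ord.coe_sigK_iterate, hσ]

end Fermat.Agent.S56.EC.Base
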